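/-
TW-FLAT, supersingular containment, shadow of `TwistCore` (CoreC): rings of fixed integral
elements and their polynomial presentations.

* `fixRing P S` : the subring of `Qb` of elements of `P` fixed by every `σ ∈ S`;
* `pres_of_span_indep` : if every element of `R'` is an `R`-combination of `1, x, …, x^(n-1)` and
  these powers are independent over `R`, then `R' = R[x]` in the polynomial form used by
  `SSC.exists_twist`, with a monic relation of degree `n`.
-/
import Mathlib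
import Fermat.Agent.TW.Flat.SSC.Basic

set_option autoImplicit false

namespace Fermat.Agent.TW.Flat.SSC.CoreC

open Fermat.Agent.S53 Fermat.Agent.TW Fermat.Agent.TW.Flat
open Polynomial

local notation "Qb" => AlgebraicClosure ℚ

/-- The elements of `P` fixed by every automorphism in `S`. -/
def fixRing (P : ValuationSubring Qb) (S : Set GQ) : Subring Qb where
  carrier := {x | x ∈ P ∧ ∀ σ ∈ S, σ x = x}
  mul_mem' := by
    rintro x y ⟨hx, hx'⟩ ⟨hy, hy'⟩
    exact ⟨P.mul_mem _ _ hx hy, fun σ hσ => by rw [map_mul, hx' σ hσ, hy' σ hσ]⟩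
  one_mem' := ⟨P.one_mem, fun σ _ => map_one σ⟩
  add_mem' := by
    rintro x y ⟨hx, hx'⟩ ⟨hy, hy'⟩
    exact ⟨P.add_mem _ _ hx hy, fun σ hσ => by rw [map_add, hx' σ hσ, hy' σ hσ]⟩
  zero_mem' := ⟨P.zero_mem, fun σ _ => map_zero σ⟩
  neg_mem' := by
    rintro x ⟨hx, hx'⟩
    exact ⟨P.neg_mem _ hx, fun σ hσ => by rw [map_neg, hx' σ hσ]⟩

theorem mem_fixRing {P : ValuationSubring Qb} {S : Set GQ} {x : Qb} :
    x ∈ fixRing P S ↔ x ∈ P ∧ ∀ σ ∈ S, σ x = x := Iff.rfl

theorem fixRing_anti {P : ValuationSubring Qb} {S T : Set GQ} (h : S ⊆ T) :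
    fixRing P T ≤ fixRing P S := fun _ hx => ⟨hx.1, fun σ hσ => hx.2 σ (h hσ)⟩

theorem fixRing_le {P : ValuationSubring Qb} {S : Set GQ} : ∀ x ∈ fixRing P S, x ∈ P :=
  fun _ hx => hx.1

theorem fixRing_div {P : ValuationSubring Qb} {S : Set GQ} :
    ∀ x ∈ fixRing P S, ∀ y ∈ fixRing P S, x / y ∈ P → x / y ∈ fixRing P S :=
  fun _ hx _ hy h => ⟨h, fun σ hσ => by rw [map_div₀, hx.2 σ hσ, hy.2 σ hσ]⟩

section pres

variable {K : Type*} [Field K]

/-- Evaluation along an inclusion of subrings, read in the ambient field. -/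
theorem coe_eval₂_inclusion {R R' : Subring K} (h : R ≤ R') (f : R[X]) (x : R') :
    ((f.eval₂ (Subring.inclusion h) x : R') : K) = f.eval₂ R.subtype (x : K) := by
  have := Polynomial.hom_eval₂ f (Subring.inclusion h) R'.subtype x
  exact this

/-- Evaluation of the polynomial attached to a coefficient vector. -/
theorem eval₂_subtype_sum (R : Subring K) (n : ℕ) (a : Fin n → K) (ha : ∀ i, a i ∈ R) (x : K) :
    ((∑ i : Fin n, C (⟨a i, ha i⟩ : R) * X ^ (i : ℕ) : R[X]).eval₂ R.subtype x) =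
      ∑ i, a i * x ^ (i : ℕ) := by
  rw [Polynomial.eval₂_finsetSum]
  refine Finset.sum_congr rfl fun i _ => ?_
  rw [Polynomial.eval₂_mul, Polynomial.eval₂_C, Polynomial.eval₂_X_pow]
  rfl

/-- From a basis of powers to the polynomial presentation. -/
theorem pres_of_span_indep (R R' : Subring K) (h : R ≤ R') (x : R') (n : ℕ)
    (hspan : ∀ y ∈ R', ∃ a : Fin n → K, (∀ i, a i ∈ R) ∧ y = ∑ i, a i * (x : K) ^ (i : ℕ))
    (hind : ∀ a : Fin n → K, (∀ i, a i ∈ R) → ∑ i, a i * (x : K) ^ (i : ℕ) = 0 → ∀ i, a i = 0) :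
    (∀ y : R', ∃ f : R[X], f.eval₂ (Subring.inclusion h) x = y) ∧
    (∀ f : R[X], f.natDegree < n → f.eval₂ (Subring.inclusion h) x = 0 → f = 0) ∧
    ∃ G : R[X], G.Monic ∧ G.natDegree = n ∧ G.eval₂ (Subring.inclusion h) x = 0 := by
  classical
  have key : ∀ a : Fin n → K, ∀ ha : ∀ i, a i ∈ R,
      ((∑ i : Fin n, C (⟨a i, ha i⟩ : R) * X ^ (i : ℕ) : R[X]).eval₂ R.subtype (x : K)) =
        ∑ i, a i * (x : K) ^ (i : ℕ) := fun a ha => eval₂_subtype_sum R n a ha _
  have hdeg : ∀ a : Fin n → K, ∀ ha : ∀ i, a i ∈ R,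
      (∑ i : Fin n, C (⟨a i, ha i⟩ : R) * X ^ (i : ℕ) : R[X]).degree < n := by
    intro a ha
    rw [Polynomial.degree_lt_iff_coeff_zero]
    intro m hm
    rw [Polynomial.finsetSum_coeff]
    refine Finset.sum_eq_zero fun i _ => ?_
    rw [Polynomial.coeff_C_mul_X_pow, if_neg]
    have := i.2
    omega
  refine ⟨fun y => ?_, fun f hf hf0 => ?_, ?_⟩
  · obtain ⟨a, ha, hy⟩ := hspan y y.2
    refine ⟨∑ i : Fin n, C (⟨a i, ha i⟩ : R) * X ^ (i : ℕ), Subtype.ext ?_⟩
    rw [coe_eval₂_inclusion, key a ha, ← hy]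
  · have h0 : f.eval₂ R.subtype (x : K) = 0 := by
      rw [← coe_eval₂_inclusion h, hf0]; rfl
    rw [Polynomial.eval₂_eq_sum_range' _ hf, ← Fin.sum_univ_eq_sum_range
      (fun i => R.subtype (f.coeff i) * (x : K) ^ i) n] at h0
    have hz := hind (fun i => (f.coeff (i : ℕ) : K)) (fun i => (f.coeff (i : ℕ)).2) h0
    refine Polynomial.ext fun i => ?_
    rw [Polynomial.coeff_zero]
    by_cases hi : i < n
    · exact Subtype.ext (hz ⟨i, hi⟩)
    · exact Polynomial.coeff_eq_zero_of_natDegree_lt (by omega)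
  · obtain ⟨b, hb, hxn⟩ := hspan ((x : K) ^ n) (R'.pow_mem x.2 n)
    have hb' : ∀ i, -b i ∈ R := fun i => R.neg_mem (hb i)
    refine ⟨X ^ n + ∑ i : Fin n, C (⟨-b i, hb' i⟩ : R) * X ^ (i : ℕ),
      Polynomial.monic_X_pow_add (hdeg _ hb'), ?_, Subtype.ext ?_⟩
    · rw [Polynomial.natDegree_add_eq_left_of_degree_lt
        (by rw [Polynomial.degree_X_pow]; exact hdeg _ hb'), Polynomial.natDegree_X_pow]
    · rw [coe_eval₂_inclusion, Polynomial.eval₂_add, Polynomial.eval₂_X_pow, key _ hb', hxn]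
      simp

end pres

end Fermat.Agent.TW.Flat.SSC.CoreC
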