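/-
TW-FLAT, supersingular containment, shadow of `TwistCore` (CoreC): the concrete rings
`R₀ ≤ R₁ ≤ R₂` (integral elements fixed by `I`, by `G_F`, by `H`) and their presentations
`R₁ = R₀[ϖ]` (from `[F-STRUCT]`, `[F-INDEP]`) and `R₂ = R₁[Π]` (from `[MONO]`).
-/
import Mathlib
import Fermat.Agent.TW.Flat.SSC.CoreC.Rings
import Fermat.Agent.TW.Flat.SSC.Val
import Fermat.Agent.TW.Flat.Local.Tame
import Fermat.Agent.TW.Flat.Local.MonoFinal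

set_option autoImplicit false

namespace Fermat.Agent.TW.Flat.SSC.CoreC

open Fermat.Agent.S53 Fermat.Agent.TW Fermat.Agent.TW.Flat
open Polynomial

local notation "Qb" => AlgebraicClosure ℚ

/-- The inertia group of `P` as a set. -/
def setI (P : ValuationSubring Qb) : Set GQ := {σ | σ ∈ P.inertiaSubgroupIn ℚ}

/-- `G_F = {σ ∈ I | σ ϖ = ϖ}` as a set. -/
def setF (P : ValuationSubring Qb) (ϖ : Qb) : Set GQ :=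
  {σ | σ ∈ P.inertiaSubgroupIn ℚ ∧ σ ϖ = ϖ}

/-- `G_F = {σ ∈ I | σ ϖ = ϖ}` as a subgroup. -/
def gF (P : ValuationSubring Qb) (ϖ : Qb) : Subgroup GQ where
  carrier := setF P ϖ
  mul_mem' := by
    rintro σ τ ⟨h1, h1'⟩ ⟨h2, h2'⟩
    exact ⟨mul_mem h1 h2, by rw [AlgEquiv.mul_apply, h2', h1']⟩
  one_mem' := ⟨one_mem _, rfl⟩
  inv_mem' := by
    rintro σ ⟨h1, h1'⟩
    refine ⟨inv_mem h1, ?_⟩
    calc σ⁻¹ ϖ = σ⁻¹ (σ ϖ) := by rw [h1']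
      _ = ϖ := by rw [← AlgEquiv.mul_apply, inv_mul_cancel, AlgEquiv.one_apply]

theorem mem_gF {P : ValuationSubring Qb} {ϖ : Qb} {σ : GQ} :
    σ ∈ gF P ϖ ↔ σ ∈ P.inertiaSubgroupIn ℚ ∧ σ ϖ = ϖ := Iff.rfl

/-- Integral inertia-fixed elements. -/
abbrev R0 (P : ValuationSubring Qb) : Subring Qb := fixRing P (setI P)

/-- Integral `G_F`-fixed elements. -/
abbrev R1 (P : ValuationSubring Qb) (ϖ : Qb) : Subring Qb := fixRing P (setF P ϖ)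

/-- Integral `H`-fixed elements. -/
abbrev R2 (P : ValuationSubring Qb) (H : Subgroup GQ) : Subring Qb := fixRing P (H : Set GQ)

theorem le01 (P : ValuationSubring Qb) (ϖ : Qb) : R0 P ≤ R1 P ϖ := fixRing_anti fun _ h => h.1

theorem le12 {P : ValuationSubring Qb} {ϖ : Qb} {H : Subgroup GQ}
    (hHF : ∀ σ ∈ H, σ ∈ P.inertiaSubgroupIn ℚ ∧ σ ϖ = ϖ) : R1 P ϖ ≤ R2 P H :=
  fixRing_anti fun σ h => hHF σ h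

theorem le02 {P : ValuationSubring Qb} {ϖ : Qb} {H : Subgroup GQ}
    (hHF : ∀ σ ∈ H, σ ∈ P.inertiaSubgroupIn ℚ ∧ σ ϖ = ϖ) : R0 P ≤ R2 P H :=
  (le01 P ϖ).trans (le12 hHF)

variable {p : ℕ} [Fact p.Prime] {P : ValuationSubring Qb}

/-- `R₁ = R₀[ϖ]`, free of rank `e`. -/
theorem pres₁ (hP : P.LiesOverPrime p) {e : ℕ} (he : 0 < e) (hpe : ¬ p ∣ e) {ϖ : Qb}
    (hϖ : ϖ ^ e = -(p : Qb)) (hϖ1 : ϖ ∈ R1 P ϖ) :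
    (∀ y : R1 P ϖ, ∃ f : (R0 P)[X], f.eval₂ (Subring.inclusion (le01 P ϖ)) ⟨ϖ, hϖ1⟩ = y) ∧
    (∀ f : (R0 P)[X], f.natDegree < e →
      f.eval₂ (Subring.inclusion (le01 P ϖ)) ⟨ϖ, hϖ1⟩ = 0 → f = 0) := by
  obtain ⟨h1, h2, -⟩ := pres_of_span_indep (R0 P) (R1 P ϖ) (le01 P ϖ) ⟨ϖ, hϖ1⟩ e
    (fun y hy => by
      obtain ⟨a, ha, hy'⟩ := Loc.Tame.fStruct p P hP e he hpe ϖ hϖ y hy.1
        (fun σ hσ hσϖ => hy.2 σ ⟨hσ, hσϖ⟩)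
      exact ⟨a, fun i => ⟨(ha i).1, fun σ hσ => (ha i).2 σ hσ⟩, hy'⟩)
    (fun a ha hsum => Loc.Tame.fIndep p P hP e he hpe ϖ hϖ a (fun i σ hσ => (ha i).2 σ hσ) hsum)
  exact ⟨h1, h2⟩

/-- `R₂ = R₁[Π]`, free of rank `n`, with a monic relation of degree `n`. -/
theorem pres₂ (hP : P.LiesOverPrime p) {e : ℕ} (he : 0 < e) (hpe : ¬ p ∣ e) {ϖ : Qb}
    (hϖ : ϖ ^ e = -(p : Qb)) (H : Subgroup GQ)
    (hHF : ∀ σ ∈ H, σ ∈ P.inertiaSubgroupIn ℚ ∧ σ ϖ = ϖ)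
    (hL : ∃ L : IntermediateField ℚ Qb, FiniteDimensional ℚ L ∧
      ∀ σ ∈ P.inertiaSubgroupIn ℚ, σ ϖ = ϖ → (∀ x ∈ L, σ x = x) → σ ∈ H)
    (n : ℕ) (hn : 0 < n)
    (hτ : ∃ τ : Fin n → GQ, (∀ i, τ i ∈ P.inertiaSubgroupIn ℚ ∧ τ i ϖ = ϖ) ∧
      ∀ σ ∈ P.inertiaSubgroupIn ℚ, σ ϖ = ϖ → ∃! i, (τ i)⁻¹ * σ ∈ H) :
    ∃ (Pi : R2 P H) (G : (R1 P ϖ)[X]), G.Monic ∧ G.natDegree = n ∧
      G.eval₂ (Subring.inclusion (le12 hHF)) Pi = 0 ∧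
      (∀ y : R2 P H, ∃ g : (R1 P ϖ)[X], g.eval₂ (Subring.inclusion (le12 hHF)) Pi = y) ∧
      (∀ g : (R1 P ϖ)[X], g.natDegree < n →
        g.eval₂ (Subring.inclusion (le12 hHF)) Pi = 0 → g = 0) := by
  obtain ⟨Pi, hPiP, hPiH, -, hspan, hind⟩ :=
    Loc.MonoPf.mono_final p P hP e he hpe ϖ hϖ H hHF hL n hn hτ
  obtain ⟨h1, h2, G, hG, hGn, hG0⟩ := pres_of_span_indep (R1 P ϖ) (R2 P H) (le12 hHF)
    ⟨Pi, hPiP, hPiH⟩ n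
    (fun y hy => by
      obtain ⟨a, ha, hy'⟩ := hspan y hy.1 hy.2
      exact ⟨a, fun i => ⟨(ha i).1, fun σ hσ => (ha i).2 σ hσ.1 hσ.2⟩, hy'⟩)
    (fun a ha hsum => hind a (fun i σ hσ hσϖ => (ha i).2 σ ⟨hσ, hσϖ⟩) hsum)
  exact ⟨⟨Pi, hPiP, hPiH⟩, G, hG, hGn, hG0, h1, h2⟩

end Fermat.Agent.TW.Flat.SSC.CoreC
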