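/-
TW-FLAT, supersingular containment, shadow of `TwistCore` (CoreC): the twist in `Qb`-terms.

From the presentation `R₂ = R₁[Π]` we get, by `SSC.exists_twist` at `d = p ϖ^s` and
`ϖ' = ϖ(1 + ϖ^s)`, a set-theoretic map `ηt : Qb → Qb` which is a ring homomorphism `R₂ → P`
modulo `p ϖ^s`, is the identity on `R₀`, sends `Σ a_i ϖ^i` to `Σ a_i ϖ'^i`, reflects divisibility
by `ϖ^s`, and whose values are fixed by the stabiliser in `G_F` of the root `Π'` of a monic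
polynomial `G'` of degree `n` with coefficients in `R₁`.
-/
import Mathlib
import Fermat.Agent.TW.Flat.SSC.CoreC.Pres
import Fermat.Agent.TW.Flat.SSC.Twist
import Fermat.Agent.TW.Flat.SSC.Core.ArchInj
import Fermat.Agent.TW.Flat.Local.Teich

set_option autoImplicit false

namespace Fermat.Agent.TW.Flat.SSC.CoreC

open Fermat.Agent.S53 Fermat.Agent.TW Fermat.Agent.TW.Flat
open Polynomial

local notation "Qb" => AlgebraicClosure ℚ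

variable {p : ℕ} [Fact p.Prime] {P : ValuationSubring Qb}

theorem tw_mem {R : Subring Qb} {ϖ : Qb} (h : ϖ ∈ R) (s : ℕ) : tw ϖ s ∈ R :=
  R.mul_mem h (R.add_mem R.one_mem (R.pow_mem h s))

theorem tw_pow_add (p e : ℕ) {ϖ : Qb} (hϖ : ϖ ^ e = -(p : Qb)) (s : ℕ) :
    -(∑ j ∈ Finset.range e, (1 + ϖ ^ s) ^ j) * ((p : Qb) * ϖ ^ s) = tw ϖ s ^ e + (p : Qb) := by
  have hg := geom_sum_mul (1 + ϖ ^ s) e
  unfold tw
  rw [mul_pow, hϖ]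
  linear_combination (-(p : Qb)) * hg

omit [Fact p.Prime] in
theorem sq_sub_one_pos' (hp : p.Prime) : 0 < p ^ 2 - 1 := by
  have h2 := hp.two_le
  have : 4 ≤ p ^ 2 := by nlinarith
  omega

omit [Fact p.Prime] in
theorem not_dvd_sq_sub_one' (hp : p.Prime) : ¬ p ∣ p ^ 2 - 1 := by
  intro h
  have h2 : p ∣ p ^ 2 := dvd_pow_self p two_ne_zero
  have h3 : p ∣ 1 := by
    have h4 : p ^ 2 = (p ^ 2 - 1) + 1 := by have := sq_sub_one_pos' hp; omega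
    rw [h4] at h2
    exact (Nat.dvd_add_right h).mp h2
  exact hp.one_lt.ne' (Nat.dvd_one.mp h3)

/-- **The twist, in `Qb`-terms.** -/
theorem exists_twist_data (hP : P.LiesOverPrime p) {ϖ : Qb} (hϖ : ϖ ^ (p ^ 2 - 1) = -(p : Qb))
    (s : ℕ) (hs : 1 ≤ s) (H : Subgroup GQ)
    (hHF : ∀ σ ∈ H, σ ∈ P.inertiaSubgroupIn ℚ ∧ σ ϖ = ϖ)
    (n : ℕ) (Pi : R2 P H) (G : (R1 P ϖ)[X]) (hG : G.Monic) (hGn : G.natDegree = n)
    (hGPi : G.eval₂ (Subring.inclusion (le12 hHF)) Pi = 0)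
    (hspan₂ : ∀ y : R2 P H, ∃ g : (R1 P ϖ)[X], g.eval₂ (Subring.inclusion (le12 hHF)) Pi = y)
    (hind₂ : ∀ g : (R1 P ϖ)[X], g.natDegree < n →
      g.eval₂ (Subring.inclusion (le12 hHF)) Pi = 0 → g = 0) :
    ∃ (ηt : Qb → Qb) (Pi' : Qb) (G' : Qb[X]),
      (∀ x ∈ R2 P H, ηt x ∈ P) ∧
      (∃ t ∈ P, ηt 1 - 1 = (p : Qb) * ϖ ^ s * t) ∧
      (∀ x ∈ R2 P H, ∀ y ∈ R2 P H,
        ∃ t ∈ P, ηt (x + y) - (ηt x + ηt y) = (p : Qb) * ϖ ^ s * t) ∧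
      (∀ x ∈ R2 P H, ∀ y ∈ R2 P H,
        ∃ t ∈ P, ηt (x * y) - ηt x * ηt y = (p : Qb) * ϖ ^ s * t) ∧
      (∀ x ∈ R0 P, ∃ t ∈ P, ηt x - x = (p : Qb) * ϖ ^ s * t) ∧
      (∀ a : Fin (p ^ 2 - 1) → Qb, (∀ i, a i ∈ R0 P) →
        ∃ t ∈ P, ηt (∑ i, a i * ϖ ^ (i : ℕ)) - ∑ i, a i * tw ϖ s ^ (i : ℕ) =
          (p : Qb) * ϖ ^ s * t) ∧
      (∀ x ∈ R2 P H, ∃ t ∈ P, ηt (x ^ p) - ηt x ^ p = (p : Qb) * ϖ ^ s * t) ∧
      (∀ x ∈ R2 P H, (∃ t ∈ P, ηt x = ϖ ^ s * t) → ∃ t ∈ P, x = ϖ ^ s * t) ∧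
      G'.Monic ∧ G'.natDegree = n ∧ (∀ i, G'.coeff i ∈ R1 P ϖ) ∧ G'.eval Pi' = 0 ∧ Pi' ∈ P ∧
      (∀ σ ∈ setF P ϖ, σ Pi' = Pi' → ∀ x, σ (ηt x) = ηt x) := by
  classical
  have hp : p.Prime := Fact.out
  have he : 0 < p ^ 2 - 1 := sq_sub_one_pos' hp
  have hpe : ¬ p ∣ p ^ 2 - 1 := not_dvd_sq_sub_one' hp
  have hϖ0 : ϖ ≠ 0 := pi_ne_zero hp.ne_zero hϖ
  have hpP : (p : Qb) ∈ P := natCast_mem P p
  have hϖP : ϖ ∈ P := mem_of_pow_mem P he.ne' (by rw [hϖ]; exact P.neg_mem _ hpP)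
  have hϖ1 : ϖ ∈ R1 P ϖ := ⟨hϖP, fun σ hσ => hσ.2⟩
  have hϖ2 : ϖ ∈ R2 P H := le12 hHF hϖ1
  have hp0 : (p : Qb) ∈ R0 P := ⟨hpP, fun σ _ => map_natCast σ p⟩
  have htw1 : tw ϖ s ∈ R1 P ϖ := tw_mem hϖ1 s
  have htwP : tw ϖ s ∈ P := htw1.1
  obtain ⟨hspan₁, hind₁⟩ := pres₁ hP he hpe hϖ hϖ1
  -- the ring-level data
  let M : (R0 P)[X] := X ^ (p ^ 2 - 1) + C (⟨(p : Qb), hp0⟩ : R0 P)
  have hM : M.Monic := Polynomial.monic_X_pow_add_C _ he.ne'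
  have hMdeg : M.natDegree = p ^ 2 - 1 := Polynomial.natDegree_X_pow_add_C
  have hMϖ : M.eval₂ (Subring.inclusion (le01 P ϖ)) (⟨ϖ, hϖ1⟩ : R1 P ϖ) = 0 := by
    apply Subtype.ext
    rw [coe_eval₂_inclusion, Polynomial.eval₂_add, Polynomial.eval₂_X_pow, Polynomial.eval₂_C]
    show ϖ ^ (p ^ 2 - 1) + (p : Qb) = 0
    rw [hϖ]; ring
  let d : P := ⟨(p : Qb) * ϖ ^ s, P.mul_mem _ _ hpP (pow_mem hϖP s)⟩
  have hMϖ' : inclP (R1 P ϖ) P fixRing_le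
      (M.eval₂ (Subring.inclusion (le01 P ϖ)) (⟨tw ϖ s, htw1⟩ : R1 P ϖ)) ∈ Ideal.span {d} := by
    rw [Ideal.mem_span_singleton']
    refine ⟨⟨-(∑ j ∈ Finset.range (p ^ 2 - 1), (1 + ϖ ^ s) ^ j), ?_⟩, Subtype.ext ?_⟩
    · exact P.neg_mem _ (sum_mem fun j _ =>
        pow_mem (P.add_mem _ _ P.one_mem (pow_mem hϖP s)) j)
    · show -(∑ j ∈ Finset.range (p ^ 2 - 1), (1 + ϖ ^ s) ^ j) * ((p : Qb) * ϖ ^ s) =
        ((M.eval₂ (Subring.inclusion (le01 P ϖ)) (⟨tw ϖ s, htw1⟩ : R1 P ϖ) : R1 P ϖ) : Qb)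
      rw [coe_eval₂_inclusion, Polynomial.eval₂_add, Polynomial.eval₂_X_pow,
        Polynomial.eval₂_C]
      exact tw_pow_add p _ hϖ s
  obtain ⟨θ, η, G', Pi', t1, t2, t3, t4, t5, t6⟩ := exists_twist P (R0 P) (R1 P ϖ) (R2 P H)
    (le01 P ϖ) (le12 hHF) fixRing_le ⟨ϖ, hϖ1⟩ Pi M hM hMϖ hspan₁ (by rw [hMdeg]; exact hind₁)
    G hG hGPi hspan₂ (by rw [hGn]; exact hind₂) d ⟨tw ϖ s, htw1⟩ hMϖ'
  -- `η` on polynomial expressions in `ϖ` over `R₀`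
  have hηQ : ∀ f : (R0 P)[X], ∀ (u v : Qb), u = f.eval₂ (R0 P).subtype ϖ →
      v = f.eval₂ (R0 P).subtype (tw ϖ s) → ∀ (h1 : u ∈ R2 P H) (h2 : v ∈ P),
      η ⟨u, h1⟩ = Ideal.Quotient.mk (Ideal.span {d}) ⟨v, h2⟩ := by
    intro f u v hu hv h1 h2
    subst hu; subst hv
    have h1' : f.eval₂ (R0 P).subtype ϖ ∈ R1 P ϖ := by
      rw [← coe_eval₂_inclusion (le01 P ϖ) f (⟨ϖ, hϖ1⟩ : R1 P ϖ)]
      exact (f.eval₂ (Subring.inclusion (le01 P ϖ)) (⟨ϖ, hϖ1⟩ : R1 P ϖ)).2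
    have e2 : (⟨f.eval₂ (R0 P).subtype ϖ, h1'⟩ : R1 P ϖ) =
        f.eval₂ (Subring.inclusion (le01 P ϖ)) (⟨ϖ, hϖ1⟩ : R1 P ϖ) :=
      Subtype.ext (coe_eval₂_inclusion (le01 P ϖ) f (⟨ϖ, hϖ1⟩ : R1 P ϖ)).symm
    have e3 : (⟨f.eval₂ (R0 P).subtype (tw ϖ s), h2⟩ : P) = inclP (R1 P ϖ) P fixRing_le
        (f.eval₂ (Subring.inclusion (le01 P ϖ)) (⟨tw ϖ s, htw1⟩ : R1 P ϖ)) :=
      Subtype.ext (coe_eval₂_inclusion (le01 P ϖ) f (⟨tw ϖ s, htw1⟩ : R1 P ϖ)).symm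
    have e4 := t6 (C (⟨f.eval₂ (R0 P).subtype ϖ, h1'⟩ : R1 P ϖ))
    rw [Polynomial.eval₂_C, Polynomial.map_C, Polynomial.eval_C] at e4
    have e5 : (⟨f.eval₂ (R0 P).subtype ϖ, h1⟩ : R2 P H) =
        Subring.inclusion (le12 hHF) (⟨f.eval₂ (R0 P).subtype ϖ, h1'⟩ : R1 P ϖ) := rfl
    rw [e5, e4, e2, e3, t1]
  -- lifts
  have hl : ∀ r : R1 P ϖ, ∃ r' : R1 P ϖ,
      Ideal.Quotient.mk (Ideal.span {d}) (inclP (R1 P ϖ) P fixRing_le r') = θ r := by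
    intro r
    obtain ⟨f, hf⟩ := hspan₁ r
    exact ⟨f.eval₂ (Subring.inclusion (le01 P ϖ)) (⟨tw ϖ s, htw1⟩ : R1 P ϖ), by rw [← hf, t1 f]⟩
  choose lift hlift using hl
  have hC : ∀ x : R2 P H, ∃ y : P, Ideal.Quotient.mk (Ideal.span {d}) y = η x ∧
      ∀ σ ∈ setF P ϖ, σ (Pi' : Qb) = Pi' → σ (y : Qb) = y := by
    intro x
    obtain ⟨g, hg⟩ := hspan₂ x
    have hc : P.subtype (∑ i ∈ g.support,
        inclP (R1 P ϖ) P fixRing_le (lift (g.coeff i)) * Pi' ^ i) =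
        ∑ i ∈ g.support, ((lift (g.coeff i) : R1 P ϖ) : Qb) * (Pi' : Qb) ^ i := by
      rw [map_sum]
      refine Finset.sum_congr rfl fun i _ => ?_
      rw [map_mul, map_pow]
      rfl
    refine ⟨∑ i ∈ g.support, inclP (R1 P ϖ) P fixRing_le (lift (g.coeff i)) * Pi' ^ i, ?_,
      fun σ hσ hσPi => ?_⟩
    · rw [← hg, t6 g, Polynomial.eval_map, Polynomial.eval₂_eq_sum, Polynomial.sum_def, map_sum]
      refine Finset.sum_congr rfl fun i _ => ?_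
      rw [map_mul, map_pow, hlift]
    · show σ (P.subtype _) = P.subtype _
      rw [hc, map_sum]
      refine Finset.sum_congr rfl fun i _ => ?_
      rw [map_mul, map_pow, hσPi, (lift (g.coeff i)).2.2 σ hσ]
  let ηt : Qb → Qb := fun x =>
    if hx : x ∈ R2 P H then ((Classical.choose (hC ⟨x, hx⟩) : P) : Qb) else 0
  have hηt : ∀ x (hx : x ∈ R2 P H), ∃ y : P, (y : Qb) = ηt x ∧
      Ideal.Quotient.mk (Ideal.span {d}) y = η ⟨x, hx⟩ := by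
    intro x hx
    refine ⟨Classical.choose (hC ⟨x, hx⟩), ?_, (Classical.choose_spec (hC ⟨x, hx⟩)).1⟩
    show _ = dite _ _ _
    rw [dif_pos hx]
  have hηtσ : ∀ σ ∈ setF P ϖ, σ (Pi' : Qb) = Pi' → ∀ x, σ (ηt x) = ηt x := by
    intro σ hσ hσPi x
    show σ (dite _ _ _) = dite _ _ _
    by_cases hx : x ∈ R2 P H
    · rw [dif_pos hx]
      exact (Classical.choose_spec (hC ⟨x, hx⟩)).2 σ hσ hσPi
    · rw [dif_neg hx]
      exact map_zero σ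
  have hcg : ∀ u v : P, Ideal.Quotient.mk (Ideal.span {d}) u = Ideal.Quotient.mk _ v →
      ∃ t ∈ P, (u : Qb) - v = (p : Qb) * ϖ ^ s * t := by
    intro u v h
    rw [Ideal.Quotient.eq, Ideal.mem_span_singleton'] at h
    obtain ⟨a, ha⟩ := h
    refine ⟨a, a.2, ?_⟩
    have h' := congrArg Subtype.val ha
    rw [mul_comm]
    exact h'.symm
  refine ⟨ηt, Pi', G'.map (R1 P ϖ).subtype, ?_, ?_, ?_, ?_, ?_, ?_, ?_, ?_, t2.map _,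
    (t2.natDegree_map _).trans (t3.trans hGn), ?_, ?_, Pi'.2, hηtσ⟩
  · -- values in `P`
    intro x hx
    obtain ⟨y, hy, -⟩ := hηt x hx
    rw [← hy]
    exact y.2
  · -- one
    obtain ⟨y, hy, hy'⟩ := hηt 1 (one_mem _)
    have h1 : Ideal.Quotient.mk (Ideal.span {d}) y = Ideal.Quotient.mk _ 1 := by
      rw [hy', map_one]
      exact map_one η
    obtain ⟨t, ht, h⟩ := hcg y 1 h1
    exact ⟨t, ht, by rw [← hy]; exact h⟩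
  · -- add
    intro x hx y hy
    obtain ⟨u, hu, hu'⟩ := hηt x hx
    obtain ⟨v, hv, hv'⟩ := hηt y hy
    obtain ⟨w, hw, hw'⟩ := hηt (x + y) (add_mem hx hy)
    have h1 : Ideal.Quotient.mk (Ideal.span {d}) w = Ideal.Quotient.mk _ (u + v) := by
      rw [map_add, hu', hv', hw', ← map_add]
      rfl
    obtain ⟨t, ht, h⟩ := hcg w (u + v) h1
    exact ⟨t, ht, by rw [← hu, ← hv, ← hw]; exact h⟩
  · -- mul
    intro x hx y hy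
    obtain ⟨u, hu, hu'⟩ := hηt x hx
    obtain ⟨v, hv, hv'⟩ := hηt y hy
    obtain ⟨w, hw, hw'⟩ := hηt (x * y) (mul_mem hx hy)
    have h1 : Ideal.Quotient.mk (Ideal.span {d}) w = Ideal.Quotient.mk _ (u * v) := by
      rw [map_mul, hu', hv', hw', ← map_mul]
      rfl
    obtain ⟨t, ht, h⟩ := hcg w (u * v) h1
    exact ⟨t, ht, by rw [← hu, ← hv, ← hw]; exact h⟩
  · -- identity on `R₀`
    intro x hx
    obtain ⟨u, hu, hu'⟩ := hηt x (le02 hHF hx)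
    have h1 := hηQ (C (⟨x, hx⟩ : R0 P)) x x (by rw [Polynomial.eval₂_C]; rfl)
      (by rw [Polynomial.eval₂_C]; rfl) (le02 hHF hx) hx.1
    obtain ⟨t, ht, h⟩ := hcg u ⟨x, hx.1⟩ (hu'.trans h1)
    exact ⟨t, ht, by rw [← hu]; exact h⟩
  · -- the twist on `Σ a_i ϖ^i`
    intro a ha
    have h2 : ∑ i, a i * ϖ ^ (i : ℕ) ∈ R2 P H :=
      sum_mem fun i _ => mul_mem (le02 hHF (ha i)) (pow_mem hϖ2 _)
    have h3 : ∑ i, a i * tw ϖ s ^ (i : ℕ) ∈ P :=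
      sum_mem fun i _ => P.mul_mem _ _ (ha i).1 (pow_mem htwP _)
    obtain ⟨u, hu, hu'⟩ := hηt _ h2
    have h1 := hηQ (∑ i : Fin (p ^ 2 - 1), C (⟨a i, ha i⟩ : R0 P) * X ^ (i : ℕ)) _ _
      (eval₂_subtype_sum (R0 P) _ a ha ϖ).symm (eval₂_subtype_sum (R0 P) _ a ha (tw ϖ s)).symm
      h2 h3
    obtain ⟨t, ht, h⟩ := hcg u ⟨_, h3⟩ (hu'.trans h1)
    exact ⟨t, ht, by rw [← hu]; exact h⟩
  · -- `p`-th powers
    intro x hx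
    obtain ⟨u, hu, hu'⟩ := hηt x hx
    obtain ⟨w, hw, hw'⟩ := hηt (x ^ p) (pow_mem hx p)
    have h1 : Ideal.Quotient.mk (Ideal.span {d}) w = Ideal.Quotient.mk _ (u ^ p) := by
      rw [map_pow, hu', hw', ← map_pow]
      rfl
    obtain ⟨t, ht, h⟩ := hcg w (u ^ p) h1
    exact ⟨t, ht, by rw [← hu, ← hw]; exact h⟩
  · -- divisibility by `ϖ^s` is reflected
    intro x hx hxt
    obtain ⟨t, ht, hxt⟩ := hxt
    obtain ⟨u, hu, hu'⟩ := hηt x hx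
    have hbP : ϖ ^ s ∈ P := pow_mem hϖP s
    have hwP : (1 + ϖ ^ s) ^ s ∈ P := pow_mem (P.add_mem _ _ P.one_mem hbP) s
    have hb2 : ϖ ^ s ∈ R2 P H := pow_mem hϖ2 s
    have hd2 : (p : Qb) * ϖ ^ s ∈ R2 P H := mul_mem (le02 hHF hp0) hb2
    have hvϖ : P.valuation (ϖ ^ s) < 1 := by
      rw [map_pow]
      exact pow_lt_one₀ zero_le (val_pi_lt_one P hP hϖ) (by omega)
    have hw : IsUnit (⟨(1 + ϖ ^ s) ^ s, hwP⟩ : P) := by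
      rw [ValuationSubring.valuation_eq_one_iff]
      show P.valuation ((1 + ϖ ^ s) ^ s) = 1
      rw [map_pow, Valuation.map_one_add_of_lt _ hvϖ, one_pow]
    have hηb : η ⟨ϖ ^ s, hb2⟩ = Ideal.Quotient.mk (Ideal.span {d})
        ((⟨ϖ ^ s, hbP⟩ : P) * ⟨(1 + ϖ ^ s) ^ s, hwP⟩) := by
      have h1 := hηQ (X ^ s) (ϖ ^ s) (tw ϖ s ^ s) (by rw [Polynomial.eval₂_X_pow])
        (by rw [Polynomial.eval₂_X_pow]) hb2 (pow_mem htwP s)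
      rw [h1]
      congr 1
      apply Subtype.ext
      show tw ϖ s ^ s = ϖ ^ s * (1 + ϖ ^ s) ^ s
      unfold tw
      rw [mul_pow]
    have hηd : η ⟨(p : Qb) * ϖ ^ s, hd2⟩ = 0 := by
      have h1 := hηQ (C (⟨(p : Qb), hp0⟩ : R0 P) * X ^ s) ((p : Qb) * ϖ ^ s)
        ((p : Qb) * tw ϖ s ^ s)
        (by rw [Polynomial.eval₂_mul, Polynomial.eval₂_C, Polynomial.eval₂_X_pow]; rfl)
        (by rw [Polynomial.eval₂_mul, Polynomial.eval₂_C, Polynomial.eval₂_X_pow]; rfl) hd2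
        (P.mul_mem _ _ hpP (pow_mem htwP s))
      rw [h1, Ideal.Quotient.eq_zero_iff_mem, Ideal.mem_span_singleton']
      refine ⟨⟨(1 + ϖ ^ s) ^ s, hwP⟩, Subtype.ext ?_⟩
      show (1 + ϖ ^ s) ^ s * ((p : Qb) * ϖ ^ s) = (p : Qb) * tw ϖ s ^ s
      unfold tw
      rw [mul_pow]
      ring
    have hd0 : d ≠ 0 := by
      intro h0
      have h0' : (p : Qb) * ϖ ^ s = 0 := congrArg Subtype.val h0
      exact mul_ne_zero (Nat.cast_ne_zero.mpr hp.ne_zero) (pow_ne_zero s hϖ0) h0'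
    have hres := mem_of_eta_mem Loc.Basic.arch p P hP (R2 P H) fixRing_le fixRing_div d
      ⟨ϖ ^ s, hbP⟩ ⟨(p : Qb), hpP⟩ ⟨(1 + ϖ ^ s) ^ s, hwP⟩ hb2 hd2 hd0
      (Subtype.ext (mul_comm _ _)) hP hw η hηb hηd ⟨x, hx⟩
      ⟨⟨t, ht⟩, by rw [← hu']; congr 1; exact Subtype.ext (hu.trans hxt)⟩
    exact hres
  · -- coefficients of `G'`
    intro i
    rw [Polynomial.coeff_map]
    exact (G'.coeff i).2
  · -- the root
    have h1 := congrArg P.subtype t4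
    rw [Polynomial.eval_map, Polynomial.hom_eval₂, map_zero] at h1
    have hcomp : (P.subtype : P →+* Qb).comp (inclP (R1 P ϖ) P fixRing_le) =
        (R1 P ϖ).subtype := RingHom.ext fun _ => rfl
    rw [hcomp] at h1
    rw [Polynomial.eval_map]
    exact h1

end Fermat.Agent.TW.Flat.SSC.CoreC
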