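/-
TW-FLAT, supersingular containment: `TwistCore k` (Fontaine's twist), independent proof (CoreC).

`twistCore k : TwistCore k`.  Route: the rings `R₀ ≤ R₁ ≤ R₂` of integral elements
fixed by `I`, by `G_F`, by `H`, with their presentations (`CoreC/Pres.lean`), the twist `ηt` modulo `p ϖ^s`
(`CoreC/TwistData.lean`), Fontaine's lifting `IsPOrder.fontaine` for `Γ = I`, `S = R₂`, `c = ϖ^s`
(the stabiliser of the twisted uniformiser `Π'` in `G_F` acts trivially on `V`, hence lies in `H`),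
the root count (`H` fixes `Π'`), and finally `y := ηt z`.
-/
import Mathlib
import Fermat.Agent.TW.Flat.SSC.CoreC.TwistData
import Fermat.Agent.TW.Flat.SSC.Core.FinV
import Fermat.Agent.TW.Flat.SSC.Core.RootCount
import Fermat.Agent.TW.Flat.SSC.Inst
import Fermat.Agent.Lib.FinFlat.Fontaine

set_option autoImplicit false

namespace Fermat.Agent.TW.Flat.SSC.CoreC

open Fermat.Agent.S53 Fermat.Agent.TW Fermat.Agent.Lib.FinFlat Fermat.Agent.TW.Flat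

local notation "Qb" => AlgebraicClosure ℚ

theorem exp_ineq {p s : ℕ} (hp : 2 ≤ p) (hs : p + 2 ≤ s) : p ^ 2 - 1 + 1 ≤ s * (p - 1) := by
  obtain ⟨m, rfl⟩ := Nat.exists_eq_add_of_le hp
  have h1 : 2 + m - 1 = m + 1 := by omega
  have h2 : 1 ≤ (2 + m) ^ 2 := Nat.one_le_pow _ _ (by omega)
  rw [h1, Nat.sub_add_cancel h2]
  nlinarith

variable {k : Type} [Field k]

/-- The stabiliser of the twisted uniformiser in `G_F` is contained in `H`. -/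
theorem stab_le (rb : GQ →* Mat2 k) (c : GQ → Mat2 k) (p : ℕ) [Fact p.Prime]
    (P : ValuationSubring Qb) (hP : P.LiesOverPrime p) (hpk : (p : k) = 0)
    (B : Subalgebra P ((Fin 2 → DualNumber k) → Qb)) (hB : IsPOrder P ⊤ (liftAct rb c) B)
    (ϖ : Qb) (hϖ : ϖ ^ (p ^ 2 - 1) = -(p : Qb)) (s : ℕ) (hs : p + 2 ≤ s)
    (H : Subgroup GQ) (hH : ∀ σ, σ ∈ H ↔ σ ∈ P.inertiaSubgroupIn ℚ ∧ σ ϖ = ϖ ∧ c σ = 0)
    (hrb : ∀ σ ∈ P.inertiaSubgroupIn ℚ, σ ϖ = ϖ → rb σ = 1)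
    (ηt : Qb → Qb) (Pi' : Qb)
    (h1 : ∀ x ∈ R2 P H, ηt x ∈ P)
    (h2 : ∃ t ∈ P, ηt 1 - 1 = (p : Qb) * ϖ ^ s * t)
    (h3 : ∀ x ∈ R2 P H, ∀ y ∈ R2 P H,
      ∃ t ∈ P, ηt (x + y) - (ηt x + ηt y) = (p : Qb) * ϖ ^ s * t)
    (h4 : ∀ x ∈ R2 P H, ∀ y ∈ R2 P H,
      ∃ t ∈ P, ηt (x * y) - ηt x * ηt y = (p : Qb) * ϖ ^ s * t)
    (h5 : ∀ x ∈ R0 P, ∃ t ∈ P, ηt x - x = (p : Qb) * ϖ ^ s * t)
    (h8 : ∀ x ∈ R2 P H, (∃ t ∈ P, ηt x = ϖ ^ s * t) → ∃ t ∈ P, x = ϖ ^ s * t)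
    (h9 : ∀ σ ∈ setF P ϖ, σ Pi' = Pi' → ∀ x, σ (ηt x) = ηt x) :
    ∀ σ ∈ setF P ϖ, σ Pi' = Pi' → σ ∈ H := by
  classical
  have hp : p.Prime := Fact.out
  have : Finite (Fin 2 → DualNumber k) := finite_of_isPOrder hB
  have hHF : ∀ σ ∈ H, σ ∈ P.inertiaSubgroupIn ℚ ∧ σ ϖ = ϖ :=
    fun σ hσ => ⟨((hH σ).mp hσ).1, ((hH σ).mp hσ).2.1⟩
  have hp0 : (p : Qb) ≠ 0 := Nat.cast_ne_zero.mpr hp.ne_zero
  have hϖ0 : ϖ ≠ 0 := pi_ne_zero hp.ne_zero hϖ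
  have hpP : (p : Qb) ∈ P := natCast_mem P p
  have hϖP : ϖ ∈ P :=
    mem_of_pow_mem P (sq_sub_one_pos' hp).ne' (by rw [hϖ]; exact P.neg_mem _ hpP)
  have hpP' : (p : Qb)⁻¹ ∉ P := fun h =>
    (val_p_lt_one P hP).ne ((isPUnit_iff P).mp ⟨hp0, hpP, h⟩)
  -- the constant `c = ϖ^s`
  have hexp := exp_ineq hp.two_le hs
  have hc : ∃ m ∈ P, m⁻¹ ∉ P ∧ (ϖ ^ s) ^ (p - 1) = (p : Qb) * m := by
    refine ⟨-ϖ ^ (s * (p - 1) - (p ^ 2 - 1)), P.neg_mem _ (pow_mem hϖP _), fun h => ?_, ?_⟩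
    · have h1 : P.valuation (-ϖ ^ (s * (p - 1) - (p ^ 2 - 1))) = 1 :=
        (isPUnit_iff P).mp ⟨neg_ne_zero.mpr (pow_ne_zero _ hϖ0), P.neg_mem _ (pow_mem hϖP _), h⟩
      rw [Valuation.map_neg, map_pow] at h1
      have h2 : P.valuation ϖ ^ (s * (p - 1) - (p ^ 2 - 1)) < 1 :=
        pow_lt_one₀ zero_le (val_pi_lt_one P hP hϖ) (by omega)
      exact h2.ne h1
    · have h1 : s * (p - 1) = (p ^ 2 - 1) + (s * (p - 1) - (p ^ 2 - 1)) := by omega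
      rw [← pow_mul]
      conv_lhs => rw [h1]
      rw [pow_add, hϖ]
      ring
  have hS : ∀ f ∈ B, Equivar (P.inertiaSubgroupIn ℚ) (liftAct rb c) f →
      ∀ v, f v ∈ R2 P H := by
    intro f hf hfe v
    refine ⟨hB.integral f hf v, fun σ hσ => ?_⟩
    have hσ' := (hH σ).mp hσ
    rw [← hfe σ hσ'.1 v, liftAct_of_eq_one (hrb σ hσ'.1 hσ'.2.1) hσ'.2.2]
  obtain ⟨φ, -, -, hφ3, hφ4⟩ := (hB.mono (le_top : P.inertiaSubgroupIn ℚ ≤ ⊤)).fontaine hp hpP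
    hpP' (nsmul_dual_eq_zero hpk) hc (fun σ _ v w => liftAct_add rb c σ v w) (R2 P H) ηt hS h1
    h2 h3 h4 (fun a ha hfix => ⟨le02 hHF ⟨ha, hfix⟩, h5 a ⟨ha, hfix⟩⟩)
  have hinj : Function.Injective φ := hφ4 h8
  have hsurj : Function.Surjective φ := Finite.injective_iff_surjective.mp hinj
  intro σ hσ hσPi
  have hdec : ∀ x ∈ P, σ x ∈ P := fun x hx =>
    (Loc.Basic.decompMem P σ (inertia_le_decomp P hσ.1) x).mpr hx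
  have hfix := hφ3 σ hσ.1 hdec
    (fun x _ => ⟨0, P.zero_mem, by rw [h9 σ hσ hσPi x, sub_self, mul_zero]⟩)
  have hall : ∀ v, liftAct rb c σ v = v := fun v => by
    obtain ⟨w, rfl⟩ := hsurj v
    exact hfix w
  exact (hH σ).mpr ⟨hσ.1, hσ.2, c_eq_zero_of_liftAct (hrb σ hσ.1 hσ.2) hall⟩

/-- **(CORE) Fontaine's twist.** -/
theorem twistCore (k : Type) [Field k] : TwistCore k := by
  intro rb p _ hp2 hres P hP hline c hc hfl ϖ hϖ s hs a ha z hzP hzH hz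
  classical
  have hp : p.Prime := Fact.out
  obtain ⟨B, hB⟩ := hfl
  have hV : Finite (Fin 2 → DualNumber k) := finite_of_isPOrder hB
  have : Finite k := Finite.of_injective
    (fun x : k => (fun _ => TrivSqZeroExt.inl x : Fin 2 → DualNumber k))
    (fun x y h => TrivSqZeroExt.inl_injective (congrFun h 0))
  obtain ⟨hrb, -, -, H, n, hH, hn, hL, τ, hτ, huniq⟩ :=
    Inst.hData_inst k rb p hp2 hres P hP hline c hc ϖ hϖ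
  have hHF : ∀ σ ∈ H, σ ∈ P.inertiaSubgroupIn ℚ ∧ σ ϖ = ϖ :=
    fun σ hσ => ⟨((hH σ).mp hσ).1, ((hH σ).mp hσ).2.1⟩
  have he := sq_sub_one_pos' hp
  have hpe := not_dvd_sq_sub_one' hp
  obtain ⟨Pi, G, hG, hGn, hGPi, hspan₂, hind₂⟩ :=
    pres₂ hP he hpe hϖ H hHF hL n hn ⟨τ, hτ, huniq⟩
  obtain ⟨ηt, Pi', G', h1, h2, h3, h4, h5, h6, h7, h8, hG'm, hG'n, hG'c, hG'r, -, h9⟩ :=
    exists_twist_data hP hϖ s (by omega) H hHF n Pi G hG hGn hGPi hspan₂ hind₂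
  have hstab := stab_le rb c p P hP hres.charP B hB ϖ hϖ s hs H hH hrb ηt Pi' h1 h2 h3 h4 h5
    h8 h9
  have hHfix : ∀ σ ∈ H, σ Pi' = Pi' :=
    fix_of_root_count G' n hG'm.ne_zero hG'n Pi' hG'r (gF P ϖ) H (fun σ hσ => hHF σ hσ) τ hτ
      (fun σ hσ => huniq σ hσ.1 hσ.2) (fun σ hσ i => (hG'c i).2 σ hσ)
      (fun σ hσ h => hstab σ hσ h)
  have hz2 : z ∈ R2 P H :=
    ⟨hzP, fun σ hσ => hzH σ ((hH σ).mp hσ).1 ((hH σ).mp hσ).2.1 ((hH σ).mp hσ).2.2⟩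
  refine ⟨ηt z, h1 z hz2, fun σ hσ hσϖ hcσ =>
    h9 σ ⟨hσ, hσϖ⟩ (hHfix σ ((hH σ).mpr ⟨hσ, hσϖ, hcσ⟩)) z, ?_⟩
  obtain ⟨t1, ht1, e1⟩ := h7 z hz2
  obtain ⟨t2, ht2, e2⟩ := h6 a (fun i => ⟨(ha i).1, fun σ hσ => (ha i).2 σ hσ⟩)
  rw [hz] at e1
  have hd0 : (p : Qb) * ϖ ^ s ≠ 0 :=
    mul_ne_zero (Nat.cast_ne_zero.mpr hp.ne_zero) (pow_ne_zero s (pi_ne_zero hp.ne_zero hϖ))
  have hq : (ηt z ^ p - ∑ i, a i * tw ϖ s ^ (i : ℕ)) / ((p : Qb) * ϖ ^ s) = t2 - t1 := by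
    rw [div_eq_iff hd0]
    linear_combination e2 - e1
  rw [hq]
  exact sub_mem ht2 ht1

end Fermat.Agent.TW.Flat.SSC.CoreC
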